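import Mathlib

set_option autoImplicit false

namespace Fermat.Agent.S49

section Formal

variable {R : Type*} [CommRing R]

theorem exists_prime_factorization_step (m : ℕ) (hm : 2 ≤ m) :
    ∃ ℓ m' : ℕ, ℓ.Prime ∧ m = m' * ℓ ∧ 1 ≤ m' ∧ m' < m := by
  have hℓ : (m.minFac).Prime := Nat.minFac_prime (by omega)
  obtain ⟨n, hn⟩ := Nat.minFac_dvd m
  have hℓ2 : 2 ≤ m.minFac := hℓ.two_le
  have hnpos : 1 ≤ n := by
    rcases Nat.eq_zero_or_pos n with h0 | h0
    · rw [h0, mul_zero] at hn; omega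
    · exact h0
  have hnlt : n < m := by
    calc n < m.minFac * n := by nlinarith
      _ = m := hn.symm
  exact ⟨m.minFac, n, hℓ, by rw [mul_comm]; exact hn, hnpos, hnlt⟩

theorem formal_vanish (b χ d : ℕ → R) (h1 : b 1 = 0)
    (hrec : ∀ ℓ : ℕ, ℓ.Prime → ∀ n : ℕ,
      b (n * ℓ) = χ ℓ * b n - d ℓ * (if ℓ ∣ n then b (n / ℓ) else 0)) :
    ∀ m : ℕ, 1 ≤ m → b m = 0 := by
  intro m
  induction m using Nat.strong_induction_on with
  | _ m ih =>
    intro hm
    rcases Nat.lt_or_ge m 2 with h | h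
    · have : m = 1 := by omega
      rw [this]; exact h1
    · obtain ⟨ℓ, n, hℓ, hmn, hnpos, hnlt⟩ := exists_prime_factorization_step m h
      have hℓ2 : 2 ≤ ℓ := hℓ.two_le
      rw [hmn, hrec _ hℓ n, ih n hnlt hnpos]
      split_ifs with hd
      · have h1' : 1 ≤ n / ℓ :=
          Nat.div_pos (Nat.le_of_dvd (by omega) hd) (by omega)
        have h2' : n / ℓ < m := lt_of_le_of_lt (Nat.div_le_self _ _) hnlt
        rw [ih _ h2' h1']; ring
      · ring

theorem formal_mul_coprime (b d : ℕ → R) (h1 : b 1 = 1)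
    (hrec : ∀ ℓ : ℕ, ℓ.Prime → ∀ n : ℕ,
      b (n * ℓ) = b ℓ * b n - d ℓ * (if ℓ ∣ n then b (n / ℓ) else 0)) :
    ∀ m n : ℕ, m.Coprime n → b (m * n) = b m * b n := by
  intro m
  induction m using Nat.strong_induction_on with
  | _ m ih =>
    intro n hmn
    rcases Nat.lt_or_ge m 2 with h | h
    · interval_cases m
      · rw [Nat.coprime_zero_left] at hmn
        rw [hmn, h1, mul_one, mul_one]
      · rw [one_mul, h1, one_mul]
    · obtain ⟨ℓ, m', hℓ, hm', hm'pos, hm'lt⟩ := exists_prime_factorization_step m h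
      have hℓ2 : 2 ≤ ℓ := hℓ.two_le
      have hcop' : m'.Coprime n := Nat.Coprime.coprime_dvd_left ⟨ℓ, hm'⟩ hmn
      have hcopℓ : ℓ.Coprime n :=
        Nat.Coprime.coprime_dvd_left ⟨m', by rw [hm', mul_comm]⟩ hmn
      have hℓn : ¬ ℓ ∣ n := (Nat.Prime.coprime_iff_not_dvd hℓ).1 hcopℓ
      have e1 : m * n = (m' * n) * ℓ := by rw [hm']; ring
      have hbm : b m = b ℓ * b m' - d ℓ * (if ℓ ∣ m' then b (m' / ℓ) else 0) := by
        rw [hm']
        exact hrec ℓ hℓ m'
      rw [e1, hrec ℓ hℓ (m' * n), ih m' hm'lt n hcop', hbm]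
      by_cases hd : ℓ ∣ m'
      · obtain ⟨m'', hm''⟩ := hd
        have hdvd : ℓ ∣ m' * n := Dvd.dvd.mul_right ⟨m'', hm''⟩ n
        rw [if_pos hdvd, if_pos ⟨m'', hm''⟩]
        have e3 : m' * n / ℓ = m'' * n := by
          rw [hm'', mul_assoc, Nat.mul_div_cancel_left _ (by omega)]
        have e4 : m' / ℓ = m'' := by rw [hm'', Nat.mul_div_cancel_left _ (by omega)]
        have hm''lt : m'' < m := by
          have : m'' ≤ m' := by rw [hm'']; nlinarith
          omega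
        have hcop'' : m''.Coprime n :=
          Nat.Coprime.coprime_dvd_left ⟨ℓ, by rw [hm'', mul_comm]⟩ hcop'
        rw [e3, e4, ih m'' hm''lt n hcop'']
        ring
      · have hnd : ¬ ℓ ∣ m' * n := fun hdvd => (hℓ.dvd_mul.1 hdvd).elim hd hℓn
        rw [if_neg hnd, if_neg hd]
        ring

end Formal

end Fermat.Agent.S49
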