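import Mathlib

set_option autoImplicit false

namespace Fermat.Agent.S49

open Module

section CommonEigenvector

variable {K V : Type*} [Field K] [AddCommGroup V] [Module K V]

theorem pow_apply_mem_of_invariant (S : Module.End K V) (W : Submodule K V)
    (hW : ∀ x ∈ W, S x ∈ W) {x : V} (hx : x ∈ W) (n : ℕ) : (S ^ n) x ∈ W := by
  induction n with
  | zero => simpa using hx
  | succ n ih =>
    rw [pow_succ', Module.End.mul_apply]
    exact hW _ ih

theorem exists_ne_zero_mem_ker_of_pow_eq_zero (S : Module.End K V) (W : Submodule K V)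
    (hW : ∀ x ∈ W, S x ∈ W) {x : V} (hx : x ∈ W) (hx0 : x ≠ 0) {k : ℕ} (hk : (S ^ k) x = 0) :
    ∃ v ∈ W, v ≠ 0 ∧ S v = 0 := by
  classical
  have hex : ∃ n, (S ^ n) x = 0 := ⟨k, hk⟩
  have hspec := Nat.find_spec hex
  have hn0 : Nat.find hex ≠ 0 := by
    intro h0
    rw [h0] at hspec
    exact hx0 (by simpa using hspec)
  obtain ⟨m, hm⟩ := Nat.exists_eq_succ_of_ne_zero hn0
  refine ⟨(S ^ m) x, pow_apply_mem_of_invariant S W hW hx m, ?_, ?_⟩
  · exact Nat.find_min hex (by omega)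
  · rw [hm, pow_succ', Module.End.mul_apply] at hspec
    exact hspec

theorem exists_common_eigenvector [FiniteDimensional K V] {ι : Type*} (T : ι → Module.End K V)
    (hcomm : ∀ i j, Commute (T i) (T j)) (χ : ι → K)
    (hne : (⨅ i, (T i).maxGenEigenspace (χ i)) ≠ ⊥) :
    ∃ v : V, v ≠ 0 ∧ ∀ i, T i v = χ i • v := by
  classical
  set W : Submodule K V := ⨅ i, (T i).maxGenEigenspace (χ i) with hWdef
  let 𝒮 : Set (Submodule K V) :=
    {W' | W' ≠ ⊥ ∧ W' ≤ W ∧ ∀ i, ∀ x ∈ W', T i x ∈ W'}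
  have hW𝒮 : W ∈ 𝒮 := by
    refine ⟨hne, le_rfl, fun i x hx => ?_⟩
    rw [hWdef, Submodule.mem_iInf] at hx ⊢
    intro j
    exact Module.End.mapsTo_maxGenEigenspace_of_comm (hcomm j i) (χ j) (hx j)
  obtain ⟨W₀, hW₀, hmin⟩ := (wellFounded_lt (α := Submodule K V)).has_min 𝒮 ⟨W, hW𝒮⟩
  obtain ⟨hW₀ne, hW₀le, hW₀inv⟩ := hW₀
  have key : ∀ i, ∀ x ∈ W₀, T i x = χ i • x := by
    intro i
    set S : Module.End K V := T i - χ i • (1 : Module.End K V) with hS
    have hSinv : ∀ x ∈ W₀, S x ∈ W₀ := by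
      intro x hx
      rw [hS, LinearMap.sub_apply, LinearMap.smul_apply, Module.End.one_apply]
      exact W₀.sub_mem (hW₀inv i x hx) (W₀.smul_mem _ hx)
    obtain ⟨x, hx, hx0⟩ := Submodule.exists_mem_ne_zero_of_ne_bot hW₀ne
    have hxW : x ∈ (T i).maxGenEigenspace (χ i) := by
      have := hW₀le hx
      rw [hWdef, Submodule.mem_iInf] at this
      exact this i
    rw [Module.End.mem_maxGenEigenspace] at hxW
    obtain ⟨k, hk⟩ := hxW
    obtain ⟨v, hvW, hv0, hSv⟩ := exists_ne_zero_mem_ker_of_pow_eq_zero S W₀ hSinv hx hx0 hk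
    set W₁ : Submodule K V := W₀ ⊓ LinearMap.ker S with hW₁
    have hW₁𝒮 : W₁ ∈ 𝒮 := by
      refine ⟨?_, inf_le_left.trans hW₀le, ?_⟩
      · intro hbot
        have : v ∈ W₁ := ⟨hvW, hSv⟩
        rw [hbot] at this
        exact hv0 ((Submodule.mem_bot K).1 this)
      · intro j y hy
        refine ⟨hW₀inv j y hy.1, ?_⟩
        have hy2 : S y = 0 := hy.2
        have hc : Commute S (T j) := by
          rw [hS]
          exact Commute.sub_left (hcomm i j) ((Commute.one_left (T j)).smul_left (χ i))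
        have : S (T j y) = T j (S y) := by
          have := congrArg (fun Q : Module.End K V => Q y) hc.eq
          simpa [Module.End.mul_apply] using this
        change S (T j y) = 0
        rw [this, hy2, map_zero]
    have hle : W₁ ≤ W₀ := inf_le_left
    have heq : W₁ = W₀ := by
      by_contra hneq
      exact hmin W₁ hW₁𝒮 (lt_of_le_of_ne hle hneq)
    intro y hy
    have hy' : y ∈ W₁ := heq ▸ hy
    have hSy : S y = 0 := hy'.2
    rw [hS, LinearMap.sub_apply, LinearMap.smul_apply, Module.End.one_apply, sub_eq_zero] at hSy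
    exact hSy
  obtain ⟨x, hx, hx0⟩ := Submodule.exists_mem_ne_zero_of_ne_bot hW₀ne
  exact ⟨x, hx0, fun i => key i x hx⟩

end CommonEigenvector

section Integrality

variable {V : Type*} [AddCommGroup V] [Module ℂ V] [FiniteDimensional ℂ V]

theorem isIntegral_of_hasEigenvalue_of_lattice (T : Module.End ℂ V) (L : Submodule ℤ V)
    (hLfg : L.FG) (hLspan : Submodule.span ℂ (L : Set V) = ⊤) (hTL : ∀ x ∈ L, T x ∈ L)
    {μ : ℂ} (hμ : T.HasEigenvalue μ) : IsIntegral ℤ μ := by
  classical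
  set S : Module.End ℂ V := T - μ • (1 : Module.End ℂ V) with hS
  have hker : LinearMap.ker S ≠ ⊥ := by
    have := hμ
    rw [Module.End.hasEigenvalue_iff, Module.End.eigenspace_def] at this
    exact this
  have hrange : LinearMap.range S ≠ ⊤ := by
    intro htop
    apply hker
    rw [LinearMap.ker_eq_bot]
    exact (LinearMap.injective_iff_surjective).2 (LinearMap.range_eq_top.1 htop)
  obtain ⟨ψ, hψ0, hψ⟩ := Submodule.exists_le_ker_of_lt_top _ (lt_top_iff_ne_top.2 hrange)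
  have hψT : ∀ x, ψ (T x) = μ * ψ x := by
    intro x
    have hx : S x ∈ LinearMap.ker ψ := hψ (LinearMap.mem_range_self S x)
    rw [LinearMap.mem_ker, hS, LinearMap.sub_apply, LinearMap.smul_apply, Module.End.one_apply,
      map_sub, map_smul, sub_eq_zero, smul_eq_mul] at hx
    exact hx
  set N : Submodule ℤ ℂ := L.map (ψ.restrictScalars ℤ) with hN
  have hNfg : N.FG := hLfg.map _
  have hNne : N ≠ ⊥ := by
    intro hbot
    apply hψ0
    have hle : Submodule.span ℂ (L : Set V) ≤ LinearMap.ker ψ := by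
      rw [Submodule.span_le]
      intro x hx
      have : ψ x ∈ N := ⟨x, hx, rfl⟩
      rw [hbot] at this
      exact (Submodule.mem_bot ℤ).1 this
    rw [hLspan, top_le_iff] at hle
    exact LinearMap.ker_eq_top.1 hle
  refine isIntegral_of_smul_mem_submodule (A := ℂ) (M := ℂ) N hNne hNfg μ ?_
  rintro _ ⟨x, hx, rfl⟩
  refine ⟨T x, hTL x hx, ?_⟩
  simp only [LinearMap.coe_restrictScalars, smul_eq_mul]
  exact hψT x

end Integrality

section Lifting

theorem exists_common_eigenvector_congr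
    {V : Type*} [AddCommGroup V] [Module ℂ V] [FiniteDimensional ℂ V]
    {ι : Type*} (T : ι → Module.End ℂ V)
    (hcomm : ∀ i j, Commute (T i) (T j))
    (L : Submodule ℤ V) (hLfg : L.FG) (hLspan : Submodule.span ℂ (L : Set V) = ⊤)
    (hTL : ∀ i, ∀ x ∈ L, T i x ∈ L)
    (φ : V →ₗ[ℂ] ℂ) (hφ : ∀ x ∈ L, ∃ m : ℤ, φ x = m)
    (𝔪 : Ideal (integralClosure ℤ ℂ)) (h𝔪 : 𝔪.IsPrime) (p : ℤ)
    (hp : (p : integralClosure ℤ ℂ) ∈ 𝔪)
    (f : V) (u : integralClosure ℤ ℂ) (hu : u ∉ 𝔪) (hφf : φ f = (u : ℂ))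
    (a : ι → ℤ) (ha : ∀ i, ∃ g ∈ L, T i f - (a i : ℂ) • f = (p : ℂ) • g) :
    ∃ (g : V) (χ : ι → integralClosure ℤ ℂ), g ≠ 0 ∧ (∀ i, T i g = (χ i : ℂ) • g) ∧
      ∀ i, χ i - (a i : integralClosure ℤ ℂ) ∈ 𝔪 := by
  classical
  set LO : Submodule (integralClosure ℤ ℂ) V := Submodule.span (integralClosure ℤ ℂ) (L : Set V)
    with hLO
  have hL_LO : ∀ x ∈ L, x ∈ LO := fun x hx => Submodule.subset_span hx
  have hlin : ∀ (Q : Module.End ℂ V) (c : integralClosure ℤ ℂ) (x : V),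
      Q (c • x) = c • Q x := by
    intro Q c x
    rw [Subalgebra.smul_def, map_smul, ← Subalgebra.smul_def]
  have hT_LO : ∀ i, ∀ y ∈ LO, T i y ∈ LO := by
    intro i y hy
    induction hy using Submodule.span_induction with
    | mem x hx => exact hL_LO _ (hTL i x hx)
    | zero => rw [map_zero]; exact LO.zero_mem
    | add x y _ _ hx hy => rw [map_add]; exact LO.add_mem hx hy
    | smul c x _ hx => rw [hlin]; exact LO.smul_mem c hx
  have hφ_LO : ∀ y ∈ LO, ∃ c : integralClosure ℤ ℂ, φ y = (c : ℂ) := by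
    intro y hy
    induction hy using Submodule.span_induction with
    | mem x hx =>
      obtain ⟨m, hm⟩ := hφ x hx
      exact ⟨(m : integralClosure ℤ ℂ), by rw [hm]; simp⟩
    | zero => exact ⟨0, by simp⟩
    | add x y _ _ hx hy =>
      obtain ⟨c, hc⟩ := hx
      obtain ⟨d, hd⟩ := hy
      exact ⟨c + d, by rw [map_add, hc, hd]; simp⟩
    | smul c x _ hx =>
      obtain ⟨d, hd⟩ := hx
      exact ⟨c * d, by rw [Subalgebra.smul_def, map_smul, hd]; simp⟩
  let Good : Module.End ℂ V → Prop := fun Q =>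
    (∀ y ∈ LO, Q y ∈ LO) ∧
    (∃ c : integralClosure ℤ ℂ, c ∉ 𝔪 ∧ ∃ y ∈ LO, Q f = (c : ℂ) • f + (p : ℂ) • y) ∧
    ∀ R : Module.End ℂ V, (∀ j, Commute R (T j)) → Commute Q R
  have good_one : Good 1 := by
    refine ⟨fun y hy => by simpa using hy, ⟨1, ?_, 0, LO.zero_mem, by simp⟩,
      fun R _ => Commute.one_left R⟩
    exact fun h1 => h𝔪.ne_top ((Ideal.eq_top_iff_one 𝔪).2 h1)
  have good_mul : ∀ Q₁ Q₂, Good Q₁ → Good Q₂ → Good (Q₁ * Q₂) := by
    rintro Q₁ Q₂ ⟨h1a, ⟨c₁, hc₁, y₁, hy₁, h1b⟩, h1c⟩ ⟨h2a, ⟨c₂, hc₂, y₂, hy₂, h2b⟩, h2c⟩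
    refine ⟨fun y hy => h1a _ (h2a y hy), ⟨c₁ * c₂, ?_, c₂ • y₁ + Q₁ y₂, ?_, ?_⟩,
      fun R hR => Commute.mul_left (h1c R hR) (h2c R hR)⟩
    · intro hmem
      rcases h𝔪.mem_or_mem hmem with h | h
      · exact hc₁ h
      · exact hc₂ h
    · exact LO.add_mem (LO.smul_mem c₂ hy₁) (h1a y₂ hy₂)
    · rw [Module.End.mul_apply, h2b, map_add, map_smul, map_smul, h1b, Subalgebra.smul_def]
      push_cast
      module
  have good_pow : ∀ Q, Good Q → ∀ k : ℕ, Good (Q ^ k) := by
    intro Q hQ k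
    induction k with
    | zero => simpa using good_one
    | succ k ih => rw [pow_succ]; exact good_mul _ _ ih hQ
  have good_lin : ∀ (i : ι) (ν : integralClosure ℤ ℂ), (a i : integralClosure ℤ ℂ) - ν ∉ 𝔪 →
      Good (T i - (ν : ℂ) • (1 : Module.End ℂ V)) := by
    intro i ν hν
    obtain ⟨g, hg, hgeq⟩ := ha i
    refine ⟨fun y hy => ?_, ⟨(a i : integralClosure ℤ ℂ) - ν, hν, g, hL_LO g hg, ?_⟩,
      fun R hR => ?_⟩
    · rw [LinearMap.sub_apply, LinearMap.smul_apply, Module.End.one_apply, ← Subalgebra.smul_def]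
      exact LO.sub_mem (hT_LO i y hy) (LO.smul_mem ν hy)
    · rw [LinearMap.sub_apply, LinearMap.smul_apply, Module.End.one_apply]
      have h1 : T i f = (a i : ℂ) • f + (p : ℂ) • g := by
        rw [← hgeq]; abel
      rw [h1]
      push_cast
      module
    · exact Commute.sub_left (hR i).symm ((Commute.one_left R).smul_left _)
  have good_ne : ∀ Q, Good Q → Q f ≠ 0 := by
    rintro Q ⟨-, ⟨c, hc, y, hy, hQf⟩, -⟩ h0
    obtain ⟨d, hd⟩ := hφ_LO y hy
    have h1 : φ (Q f) = (c : ℂ) * (u : ℂ) + (p : ℂ) * (d : ℂ) := by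
      rw [hQf, map_add, map_smul, map_smul, hφf, hd]
      simp
    rw [h0, map_zero] at h1
    have h2 : c * u = -((p : integralClosure ℤ ℂ) * d) := by
      apply Subtype.ext
      push_cast
      linear_combination -h1
    have h3 : c * u ∈ 𝔪 := by
      rw [h2]
      exact 𝔪.neg_mem (𝔪.mul_mem_right d hp)
    rcases h𝔪.mem_or_mem h3 with h | h
    · exact hc h
    · exact hu h
  -- the main claim
  have main : ∃ χ : ι → ℂ, (⨅ i, (T i).maxGenEigenspace (χ i)) ≠ ⊥ ∧
      ∀ i, ∃ c : integralClosure ℤ ℂ, (c : ℂ) = χ i ∧ c - (a i : integralClosure ℤ ℂ) ∈ 𝔪 := by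
    by_contra hcon
    push Not at hcon
    have hQχ : ∀ χ : ι → ℂ, ∃ Q, Good Q ∧ ∀ x ∈ (⨅ i, (T i).maxGenEigenspace (χ i)), Q x = 0 := by
      intro χ
      by_cases hbot : (⨅ i, (T i).maxGenEigenspace (χ i)) = ⊥
      · refine ⟨1, good_one, fun x hx => ?_⟩
        rw [hbot] at hx
        rw [(Submodule.mem_bot ℂ).1 hx, map_zero]
      · obtain ⟨i, hi⟩ := hcon χ hbot
        -- χ i is an eigenvalue of T i, hence integral
        obtain ⟨x, hx, hx0⟩ := Submodule.exists_mem_ne_zero_of_ne_bot hbot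
        have hxi : x ∈ (T i).maxGenEigenspace (χ i) := (Submodule.mem_iInf _).1 hx i
        obtain ⟨k, hk⟩ := (Module.End.mem_maxGenEigenspace _ _ _).1 hxi
        obtain ⟨v, -, hv0, hv⟩ := exists_ne_zero_mem_ker_of_pow_eq_zero
          (T i - χ i • (1 : Module.End ℂ V)) ⊤ (fun _ _ => Submodule.mem_top) Submodule.mem_top
          hx0 hk
        have heig : (T i).HasEigenvalue (χ i) := by
          refine Module.End.hasEigenvalue_of_hasEigenvector (x := v) ⟨?_, hv0⟩
          rw [Module.End.mem_eigenspace_iff]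
          rw [LinearMap.sub_apply, LinearMap.smul_apply, Module.End.one_apply, sub_eq_zero] at hv
          exact hv
        have hint : IsIntegral ℤ (χ i) :=
          isIntegral_of_hasEigenvalue_of_lattice (T i) L hLfg hLspan (hTL i) heig
        set ν : integralClosure ℤ ℂ := ⟨χ i, hint⟩ with hν
        have hνm : (a i : integralClosure ℤ ℂ) - ν ∉ 𝔪 := by
          intro hmem
          apply hi ν rfl
          have := 𝔪.neg_mem hmem
          rwa [neg_sub] at this
        refine ⟨(T i - (ν : ℂ) • (1 : Module.End ℂ V)) ^ (Module.finrank ℂ V),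
          good_pow _ (good_lin i ν hνm) _, fun y hy => ?_⟩
        have hyi : y ∈ (T i).maxGenEigenspace (χ i) := (Submodule.mem_iInf _).1 hy i
        rw [Module.End.maxGenEigenspace_eq_genEigenspace_finrank,
          Module.End.mem_genEigenspace_nat, LinearMap.mem_ker] at hyi
        exact hyi
    choose Qχ hQgood hQkill using hQχ
    have hfin : ∀ (s : Finset (ι → ℂ)) (g : (ι → ℂ) → V),
        (∀ χ, g χ ∈ (⨅ i, (T i).maxGenEigenspace (χ i))) →
        ∃ Q, Good Q ∧ ∀ χ ∈ s, Q (g χ) = 0 := by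
      intro s g hg
      induction s using Finset.induction_on with
      | empty => exact ⟨1, good_one, by simp⟩
      | insert χ s _ ih =>
        obtain ⟨Q, hQ, hQs⟩ := ih
        refine ⟨Q * Qχ χ, good_mul _ _ hQ (hQgood χ), fun χ' hχ' => ?_⟩
        rcases Finset.mem_insert.1 hχ' with rfl | hmem
        · rw [Module.End.mul_apply, hQkill _ _ (hg _), map_zero]
        · have hc : Commute Q (Qχ χ) :=
            hQ.2.2 _ (fun j => (hQgood χ).2.2 _ (fun j' => hcomm j j'))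
          rw [hc.eq, Module.End.mul_apply, hQs _ hmem, map_zero]
    have htop : ⨆ χ : ι → ℂ, ⨅ i, (T i).maxGenEigenspace (χ i) = ⊤ :=
      Module.End.iSup_iInf_maxGenEigenspace_eq_top_of_iSup_maxGenEigenspace_eq_top_of_commute T
        (fun i j _ => hcomm i j) (fun i => Module.End.iSup_maxGenEigenspace_eq_top (T i))
    have hfmem : f ∈ ⨆ χ : ι → ℂ, ⨅ i, (T i).maxGenEigenspace (χ i) := by
      rw [htop]; exact Submodule.mem_top
    obtain ⟨g, hg, hgsum⟩ := (Submodule.mem_iSup_iff_exists_finsupp _ _).1 hfmem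
    obtain ⟨Q, hQ, hQs⟩ := hfin g.support g hg
    apply good_ne Q hQ
    rw [← hgsum, Finsupp.sum, map_sum]
    exact Finset.sum_eq_zero fun χ hχ => hQs χ hχ
  obtain ⟨χ, hχne, hχ⟩ := main
  obtain ⟨v, hv0, hv⟩ := exists_common_eigenvector T hcomm χ hχne
  choose c hc hcm using hχ
  exact ⟨v, c, hv0, fun i => by rw [hc i]; exact hv i, hcm⟩

end Lifting

end Fermat.Agent.S49
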