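import Mathlib
import Fermat.Prelude.Def_CuspForm_IntegralLattice
import Fermat.Prelude.Def_FormalHecke_Eigensystem
import Fermat.Prelude.Def_ModularForm_EisensteinChiNegThree
import Fermat.Prelude.Def_FLTPrelim_Modularity
import Fermat.Prelude.Def_FLTPrelim_ModularRep
import Fermat.Prelude.Def_CuspForm_HeckeAlgebra
import Fermat.Prelude.Thm_CuspForm_intLattice_fg
import Fermat.Prelude.Thm_ModularFormClass_qCoeff_heckeT
import Fermat.Prelude.Thm_ModularFormClass_qCoeff_heckeU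
import Fermat.Prelude.Thm_CuspForm_mem_intLattice_of_mem_heckeAlgebra
import Fermat.Prelude.Thm_CongruenceSubgroup_one_mem_strictPeriods_Gamma0
import Fermat.Agent.S49.Lifting
import Fermat.Agent.S49.Formal

set_option autoImplicit false

open CuspForm EisensteinWeightOne CongruenceSubgroup ModularFormClass

namespace Fermat.Agent.S49

section Hecke

set_option linter.unusedSectionVars false

variable {N : ℕ} [NeZero N]

theorem one_mem_periods (N : ℕ) :
    (1 : ℝ) ∈ (Subgroup.map (Matrix.SpecialLinearGroup.mapGL ℝ) (Gamma0 N)).strictPeriods :=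
  CongruenceSubgroup.one_mem_strictPeriods_Gamma0 N

theorem qCoeff_add_cusp (f g : CuspForm (Gamma0 N) 2) (n : ℕ) :
    qCoeff ⇑(f + g) n = qCoeff ⇑f n + qCoeff ⇑g n :=
  P2MW.S_CuspForm_intLattice_fg.W3WsD.qCoeff_add f g n

theorem qCoeff_smul_cusp (c : ℂ) (f : CuspForm (Gamma0 N) 2) (n : ℕ) :
    qCoeff ⇑(c • f) n = c * qCoeff ⇑f n := by
  have h1 : ⇑(c • f) = c • ⇑f := by
    ext z
    simp
  simp only [qCoeff, h1]
  rw [ModularForm.qExpansion_smul one_pos (one_mem_periods N) c f]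
  simp

theorem qCoeff_sub_cusp (f g : CuspForm (Gamma0 N) 2) (n : ℕ) :
    qCoeff ⇑(f - g) n = qCoeff ⇑f n - qCoeff ⇑g n := by
  have h : f - g = f + (-1 : ℂ) • g := by
    rw [neg_one_smul, sub_eq_add_neg]
  rw [h, qCoeff_add_cusp, qCoeff_smul_cusp]
  ring

theorem qCoeff_zero_cusp (f : CuspForm (Gamma0 N) 2) : qCoeff ⇑f 0 = 0 :=
  CuspFormClass.qExpansion_coeff_zero f one_pos (one_mem_periods N)

noncomputable def coeffLin (N : ℕ) [NeZero N] (n : ℕ) : CuspForm (Gamma0 N) 2 →ₗ[ℂ] ℂ where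
  toFun f := qCoeff ⇑f n
  map_add' f g := qCoeff_add_cusp f g n
  map_smul' c f := by
    simp only [RingHom.id_apply, smul_eq_mul]
    exact qCoeff_smul_cusp c f n

theorem coeffLin_apply (n : ℕ) (f : CuspForm (Gamma0 N) 2) : coeffLin N n f = qCoeff ⇑f n := rfl

theorem eq_zero_of_forall_qCoeff_eq_zero (f : CuspForm (Gamma0 N) 2)
    (hf : ∀ n, qCoeff ⇑f n = 0) : f = 0 := by
  apply P2MW.S_CuspForm_intLattice_fg.W3WsD.trunc_injective N 2
  rw [map_zero]
  funext i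
  exact hf i

noncomputable def heckeFam (N : ℕ) [NeZero N] (ℓ : {p : ℕ // p.Prime}) :
    Module.End ℂ (CuspForm (Gamma0 N) 2) :=
  if h : (ℓ : ℕ) ∣ N then CuspForm.heckeULin 2 h else CuspForm.heckeTLin 2 ℓ.prop h

theorem heckeFam_mem (ℓ : {p : ℕ // p.Prime}) :
    heckeFam N ℓ ∈ CuspForm.heckeGenerators N 2 (∅ : Set ℕ) := by
  unfold heckeFam
  split_ifs with h
  · exact CuspForm.heckeULin_mem_heckeGenerators ℓ.prop h (Set.notMem_empty _)
  · exact CuspForm.heckeTLin_mem_heckeGenerators ℓ.prop h (Set.notMem_empty _)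

theorem heckeFam_commute (ℓ ℓ' : {p : ℕ // p.Prime}) : Commute (heckeFam N ℓ) (heckeFam N ℓ') :=
  CuspForm.commute_of_mem_heckeGenerators (heckeFam_mem ℓ) (heckeFam_mem ℓ')

def dfac (N ℓ : ℕ) : ℕ := if ℓ ∣ N then 0 else ℓ

theorem qCoeff_heckeFam (ℓ : {p : ℕ // p.Prime}) (f : CuspForm (Gamma0 N) 2) (n : ℕ) :
    qCoeff ⇑(heckeFam N ℓ f) n =
      qCoeff ⇑f (n * ℓ) +
        (dfac N ℓ : ℂ) * (if (ℓ : ℕ) ∣ n then qCoeff ⇑f (n / ℓ) else 0) := by
  unfold heckeFam dfac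
  by_cases h : (ℓ : ℕ) ∣ N
  · rw [dif_pos h, if_pos h, CuspForm.coe_heckeULin_apply,
      ModularFormClass.qCoeff_heckeU f (one_mem_periods N) ℓ.prop.ne_zero]
    simp [ModularForm.coeffHeckeU]
  · rw [dif_neg h, if_neg h, CuspForm.coe_heckeTLin_apply,
      ModularFormClass.qCoeff_heckeT f (one_mem_periods N) ℓ.prop.ne_zero]
    by_cases h' : (ℓ : ℕ) ∣ n
    · simp [ModularForm.coeffHeckeT, h']
    · simp [ModularForm.coeffHeckeT, h']

theorem mem_intLattice_iff_cusp (f : CuspForm (Gamma0 N) 2) :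
    f ∈ CuspForm.intLattice N 2 ↔ ∀ n : ℕ, ∃ m : ℤ, qCoeff ⇑f n = (m : ℂ) :=
  P2MW.S_CuspForm_intLattice_fg.W3WsD.mem_intLattice_iff f

theorem heckeFam_mem_intLattice (ℓ : {p : ℕ // p.Prime}) {f : CuspForm (Gamma0 N) 2}
    (hf : f ∈ CuspForm.intLattice N 2) : heckeFam N ℓ f ∈ CuspForm.intLattice N 2 :=
  CuspForm.mem_intLattice_of_mem_heckeAlgebra (S := (∅ : Set ℕ)) (by norm_num)
    (Algebra.subset_adjoin (heckeFam_mem ℓ)) hf

theorem span_intLattice (h : CuspForm.HasIntegralBasis N) :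
    Submodule.span ℂ ((CuspForm.intLattice N 2 : Submodule ℤ (CuspForm (Gamma0 N) 2)) :
      Set (CuspForm (Gamma0 N) 2)) = ⊤ := by
  rw [eq_top_iff, ← h]
  apply Submodule.span_mono
  intro f hf
  rw [SetLike.mem_coe, mem_intLattice_iff_cusp]
  intro n
  obtain ⟨m, hm⟩ := Subring.mem_bot.1 (hf n)
  exact ⟨m, hm.symm⟩

theorem finiteDimensional_of_hasIntegralBasis (h : CuspForm.HasIntegralBasis N) :
    FiniteDimensional ℂ (CuspForm (Gamma0 N) 2) := by
  obtain ⟨S, hS⟩ := CuspForm.intLattice_fg N 2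
  have hspan : Submodule.span ℂ (S : Set (CuspForm (Gamma0 N) 2)) = ⊤ := by
    rw [← span_intLattice h, ← hS, Submodule.span_span_of_tower]
  exact ⟨⟨S, hspan⟩⟩

theorem bridge_coeff_congr (a : ℕ → ℤ) (n : ℕ) :
    (3 : ℤ) ∣ (bridgeProduct a).coeff n - a n := by
  have hE : e1Chi3In ℤ = 1 + PowerSeries.C (3 : ℤ) *
      PowerSeries.mk (fun n => if n = 0 then 0 else 2 * sigmaChi n) := by
    ext k
    unfold e1Chi3In e1Chi3
    rw [PowerSeries.coeff_map, PowerSeries.coeff_mk, map_add, PowerSeries.coeff_one,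
      PowerSeries.coeff_C_mul, PowerSeries.coeff_mk]
    by_cases hk : k = 0
    · simp [hk]
    · simp [hk]
      ring
  unfold bridgeProduct
  rw [hE, mul_add, mul_one, mul_left_comm, map_add, PowerSeries.coeff_mk,
    PowerSeries.coeff_C_mul, add_sub_cancel_left]
  exact dvd_mul_right _ _

theorem dfac_congr (N ℓ : ℕ) :
    ((dfac N ℓ : ℕ) : ZMod 3) = if ℓ ∣ N then 0 else ((chiNegThree ℓ : ℤ) : ZMod 3) := by
  unfold dfac
  by_cases h : ℓ ∣ N
  · simp [h]
  · rw [if_neg h, if_neg h, ← Int.cast_natCast, ← sub_eq_zero, ← Int.cast_sub,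
      ZMod.intCast_zmod_eq_zero_iff_dvd]
    unfold chiNegThree
    split_ifs <;> omega

end Hecke

end Fermat.Agent.S49
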